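import Mathlib
import Fermat.Agent.LT.H556.A0
import Fermat.Agent.LT.T1.Spec
import Fermat.Agent.LT.T2.Spec
import Fermat.Agent.LT.T2.H429.OpsSpec

/-!
# Row LT, tower T2, sub-leaf T2.07.08 `SubConvLin429` (helper848)

OFF-MAIN.  Imports: Mathlib and byte-identical copies of `LT/H556/A0.lean`, `LT/T1/Spec.lean`,
`LT/T2/Spec.lean` (v2, sha256 43969e81), `LT/T2/H429/OpsSpec.lean` (sha256 657e0d9a).

`conv F f φ x = ∫ φ(x h) f(h) dμ(h)` is additive and homogeneous in `φ` on the continuous
functions: `h ↦ θ(x h) f(h)` is continuous with compact support, hence integrable for the Haar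
measure of the frame.  No hypothesis of the context is used (neither boundedness of `φ`, nor
`T1.LocCompC`).
-/

set_option autoImplicit false

open IsDedekindDomain NumberField MeasureTheory
open Fermat.Agent.LT.H556.A0
open Fermat.Agent.LT.T2

noncomputable section

namespace Fermat.Agent.LT.T2.H848

variable {K : Type} [Field K] [NumberField K]

attribute [local instance] Fermat.Agent.LT.T2.borelG

/-- The integrand of a convolution is integrable: `θ` continuous, `f` continuous with compact
support. -/
theorem integrable_conv848 (F : Frame K) {f θ : G K → ℂ} (hf : Continuous f)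
    (hc : HasCompactSupport f) (hθ : Continuous θ) (x : G K) :
    Integrable (fun h => θ (x * h) * f h) F.μ := by
  have : F.μ.IsHaarMeasure := F.haar
  have : BorelSpace (G K) := ⟨rfl⟩
  have h1 : Continuous fun h : G K => θ (x * h) * f h :=
    (hθ.comp (continuous_const.mul continuous_id)).mul hf
  have h2 : HasCompactSupport fun h : G K => θ (x * h) * f h := hc.mul_left
  exact h1.integrable_of_hasCompactSupport h2

/-- Convolution by a continuous function with compact support is additive and homogeneous on the
continuous functions. -/
theorem conv_lin848 (F : Frame K) {f φ ψ : G K → ℂ} (hf : Continuous f)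
    (hc : HasCompactSupport f) (hφ : Continuous φ) (hψ : Continuous ψ) (c : ℂ) :
    conv F f (fun g => φ g + c * ψ g) = fun g => conv F f φ g + c * conv F f ψ g := by
  funext x
  have h1 := integrable_conv848 F hf hc hφ x
  have h2 := (integrable_conv848 F hf hc hψ x).const_mul c
  show ∫ h, (φ (x * h) + c * ψ (x * h)) * f h ∂F.μ
    = ∫ h, φ (x * h) * f h ∂F.μ + c * ∫ h, ψ (x * h) * f h ∂F.μ
  have h3 : (fun h : G K => (φ (x * h) + c * ψ (x * h)) * f h)
      = fun h => φ (x * h) * f h + c * (ψ (x * h) * f h) := by
    funext h
    ring
  rw [h3, integral_add h1 h2, integral_const_mul]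

/-- **T2.07.08** -/
theorem subConvLin848 : H429.SubConvLin429 K := by
  intro 𝔫 _ F f hf φ ψ c hφ hψ
  exact conv_lin848 F hf.test.cont hf.test.cpt hφ.cont hψ.cont c

example : H429.SubConvLin429 K := subConvLin848

end Fermat.Agent.LT.T2.H848

end
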